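/-
S56 / FLAT / FD-C (helper116): the action of inertia on a stable subgroup.
-/
import Fermat.Agent.S56.Flat.Defs

set_option autoImplicit false

namespace Fermat.Agent.S56.Flat

open Fermat.Agent.Lib.InertiaField

variable {A : ValuationSubring Qb}
variable {W : Type} [AddCommGroup W] [DistribMulAction ↥(Iner A) W]

/-- the action of inertia on a stable subgroup -/
@[reducible] noncomputable def subAction (W₁ : AddSubgroup W)
    (hs₁ : ∀ (σ : ↥(Iner A)), ∀ w ∈ W₁, σ • w ∈ W₁) :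
    DistribMulAction ↥(Iner A) ↥W₁ where
  smul σ w := ⟨σ • w.1, hs₁ σ w.1 w.2⟩
  one_smul w := Subtype.ext (one_smul _ w.1)
  mul_smul σ τ w := Subtype.ext (mul_smul σ τ w.1)
  smul_zero σ := Subtype.ext (smul_zero σ)
  smul_add σ x y := Subtype.ext (smul_add σ x.1 y.1)

theorem subAction_coe (W₁ : AddSubgroup W) (hs₁ : ∀ (σ : ↥(Iner A)), ∀ w ∈ W₁, σ • w ∈ W₁)
    (σ : ↥(Iner A)) (w : ↥W₁) :
    letI := subAction W₁ hs₁
    ((σ • w : ↥W₁) : W) = σ • (w : W) := rfl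

/-- the inclusion as an equivariant map -/
noncomputable def subMap (W₁ : AddSubgroup W) (hs₁ : ∀ (σ : ↥(Iner A)), ∀ w ∈ W₁, σ • w ∈ W₁) :
    letI := subAction W₁ hs₁
    ↥W₁ →+[↥(Iner A)] W :=
  letI := subAction W₁ hs₁
  { toFun := Subtype.val
    map_smul' := fun _ _ => rfl
    map_zero' := rfl
    map_add' := fun _ _ => rfl }

theorem subMap_apply (W₁ : AddSubgroup W) (hs₁ : ∀ (σ : ↥(Iner A)), ∀ w ∈ W₁, σ • w ∈ W₁)
    (w : ↥W₁) :
    letI := subAction W₁ hs₁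
    subMap W₁ hs₁ w = (w : W) := rfl

theorem subMap_injective (W₁ : AddSubgroup W)
    (hs₁ : ∀ (σ : ↥(Iner A)), ∀ w ∈ W₁, σ • w ∈ W₁) :
    letI := subAction W₁ hs₁
    Function.Injective (subMap W₁ hs₁) := Subtype.val_injective

end Fermat.Agent.S56.Flat
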