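/-
S56 / FLAT / FD-C (helper116): the action of inertia on the quotient by a stable subgroup.
-/
import Fermat.Agent.S56.Flat.Defs

set_option autoImplicit false

namespace Fermat.Agent.S56.Flat

open Fermat.Agent.Lib.InertiaField

variable {A : ValuationSubring Qb}
variable {W : Type} [AddCommGroup W] [DistribMulAction ↥(Iner A) W]

/-- the action of inertia on the quotient by a stable subgroup -/
@[reducible] noncomputable def quotAction (W₂ : AddSubgroup W)
    (hs₂ : ∀ (σ : ↥(Iner A)), ∀ w ∈ W₂, σ • w ∈ W₂) :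
    DistribMulAction ↥(Iner A) (W ⧸ W₂) where
  smul σ := QuotientAddGroup.map W₂ W₂ (DistribSMul.toAddMonoidHom W σ) (fun w hw => hs₂ σ w hw)
  one_smul x := by
    induction x using QuotientAddGroup.induction_on with
    | H w =>
      change (QuotientAddGroup.mk ((1 : ↥(Iner A)) • w) : W ⧸ W₂) = _
      rw [one_smul]
  mul_smul σ τ x := by
    induction x using QuotientAddGroup.induction_on with
    | H w =>
      change (QuotientAddGroup.mk ((σ * τ) • w) : W ⧸ W₂) = QuotientAddGroup.mk (σ • τ • w)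
      rw [mul_smul]
  smul_zero σ := map_zero _
  smul_add σ x y := map_add _ x y

theorem quotAction_mk (W₂ : AddSubgroup W) (hs₂ : ∀ (σ : ↥(Iner A)), ∀ w ∈ W₂, σ • w ∈ W₂)
    (σ : ↥(Iner A)) (w : W) :
    letI := quotAction W₂ hs₂
    σ • (QuotientAddGroup.mk w : W ⧸ W₂) = QuotientAddGroup.mk (σ • w) := rfl

/-- the quotient map as an equivariant map -/
noncomputable def quotMap (W₂ : AddSubgroup W) (hs₂ : ∀ (σ : ↥(Iner A)), ∀ w ∈ W₂, σ • w ∈ W₂) :
    letI := quotAction W₂ hs₂
    W →+[↥(Iner A)] (W ⧸ W₂) :=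
  letI := quotAction W₂ hs₂
  { toFun := QuotientAddGroup.mk
    map_smul' := fun _ _ => rfl
    map_zero' := rfl
    map_add' := fun _ _ => rfl }

theorem quotMap_apply (W₂ : AddSubgroup W) (hs₂ : ∀ (σ : ↥(Iner A)), ∀ w ∈ W₂, σ • w ∈ W₂)
    (w : W) :
    letI := quotAction W₂ hs₂
    quotMap W₂ hs₂ w = QuotientAddGroup.mk w := rfl

theorem quotMap_surjective (W₂ : AddSubgroup W)
    (hs₂ : ∀ (σ : ↥(Iner A)), ∀ w ∈ W₂, σ • w ∈ W₂) :
    letI := quotAction W₂ hs₂
    Function.Surjective (quotMap W₂ hs₂) := QuotientAddGroup.mk_surjective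

end Fermat.Agent.S56.Flat
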