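/-
S56 / FLAT / FD-E (architect helper116; proof helper153): the core of (ET), with the three nodes
`Model.exists_quot` (Flat/Mod/Quot.lean), `Model.pos_of_mem_augSub` (Flat/Depth/Pos.lean) and
`Model.not_pos_of_fixed` (Flat/Depth/Fixed.lean) as explicit hypotheses (instantiated at `W` and at
`W ⧸ W₂`).  No unfinished proof, no WIP import.
-/
import Fermat.Agent.S56.Flat.Depth.QuotAction

set_option autoImplicit false

namespace Fermat.Agent.S56.Flat

open Fermat.Agent.Lib.InertiaField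

variable {A : ValuationSubring Qb} {p : ℕ}
variable {W : Type} [AddCommGroup W] [DistribMulAction ↥(Iner A) W]

/-- (ET), core: `(I - 1) W` has no nonzero subquotient with trivial action of inertia. -/
theorem etCore_le (hpW : ∀ w : W, p • w = 0) (M : Model A W) (W₁ W₂ : AddSubgroup W)
    (h₁ : W₁ ≤ augSub A W)
    (hs₂ : ∀ (σ : ↥(Iner A)), ∀ w ∈ W₂, σ • w ∈ W₂)
    (htriv : ∀ (σ : ↥(Iner A)), ∀ w ∈ W₁, σ • w - w ∈ W₂)
    (hquot : letI := quotAction W₂ hs₂
      ∃ M'' : Model A (W ⧸ W₂), ∀ f'' : W ⧸ W₂ → Qb,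
        f'' ∈ M''.carrier ↔ (fun w => f'' (quotMap W₂ hs₂ w)) ∈ M.carrier)
    (hpos : ∀ w : W, w ∈ augSub A W → M.Pos w)
    (hfixed : letI := quotAction W₂ hs₂
      ∀ M'' : Model A (W ⧸ W₂), (∀ x : W ⧸ W₂, p • x = 0) → ∀ x : W ⧸ W₂, x ≠ 0 →
        (∀ σ : ↥(Iner A), σ • x = x) → ¬ M''.Pos x) : W₁ ≤ W₂ := by
  letI := quotAction W₂ hs₂
  obtain ⟨M'', hM''⟩ := hquot
  intro w hw
  by_contra hw2
  have hx0 : (QuotientAddGroup.mk w : W ⧸ W₂) ≠ 0 := by
    rwa [Ne, QuotientAddGroup.eq_zero_iff]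
  have hpx : ∀ x : W ⧸ W₂, p • x = 0 := by
    intro x
    induction x using QuotientAddGroup.induction_on with
    | H v =>
      show (QuotientAddGroup.mk (p • v) : W ⧸ W₂) = 0
      rw [hpW v]
      rfl
  have hfix : ∀ σ : ↥(Iner A), σ • (QuotientAddGroup.mk w : W ⧸ W₂) = QuotientAddGroup.mk w := by
    intro σ
    rw [quotAction_mk W₂ hs₂ σ w]
    apply (QuotientAddGroup.eq_iff_sub_mem).2
    exact htriv σ w hw
  refine hfixed M'' hpx _ hx0 hfix ?_
  intro f'' hf''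
  exact hpos w (h₁ hw) _ ((hM'' f'').1 hf'')

end Fermat.Agent.S56.Flat
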