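/-
S56 / FLAT / block FD, node FD-B (architect helper116, proof helper40).
CORE of `Model.not_pos_of_fixed`: Fontaine's lemma F1 (i) (`Model.eq_of_cong`) enters as a
hypothesis, so that this file depends on the definitions only.
-/
import Fermat.Agent.S56.Flat.Defs

set_option autoImplicit false

namespace Fermat.Agent.S56.Flat

open Fermat.Agent.Lib.InertiaField

variable {A : ValuationSubring Qb} {p : ℕ}
variable {W : Type} [AddCommGroup W] [DistribMulAction ↥(Iner A) W]

/-- `v(p) = 1 > 1/(p-1)` for `p ≥ 3`. -/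
theorem fixedCore_small_natCast (hp : p.Prime) (hp2 : p ≠ 2) (hA : A.LiesOverPrime p) :
    Small A p (p : Qb) := by
  have h1 : A.valuation (p : Qb) < 1 := (A.mem_nonunits_iff).1 hA
  have h0 : A.valuation (p : Qb) ≠ 0 := (map_ne_zero _).2 (Nat.cast_ne_zero.2 hp.ne_zero)
  have h2 : 1 < p - 1 := by
    have := hp.two_le
    omega
  exact pow_lt_self_of_lt_one₀ (zero_lt_iff.2 h0) h1 h2

/-- the value of an equivariant function at a fixed point lies in the inertia field -/
theorem Model.fixedCore_mem_K0 (M : Model A W) {f : W → Qb} (hf : f ∈ M.carrier) {x : W}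
    (hx : ∀ σ : ↥(Iner A), σ • x = x) : f x ∈ K0 A := by
  rw [mem_K0_iff]
  intro τ hτ
  have h := M.equiv f hf ⟨τ, hτ⟩ x
  rw [hx] at h
  exact h.symm

/-- a fixed point reducing to `0` is congruent to `0` modulo `p` -/
theorem Model.fixedCore_cong (hp : p.Prime) (hA : A.LiesOverPrime p) (M : Model A W) {w : W}
    (hfix : ∀ σ : ↥(Iner A), σ • w = w) (hpos : M.Pos w) : M.Cong (p : Qb) w 0 := by
  intro f hf
  have h0 : A.valuation (p : Qb) ≠ 0 := (map_ne_zero _).2 (Nat.cast_ne_zero.2 hp.ne_zero)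
  have h1 : f w - f 0 ∈ K0 A :=
    sub_mem (M.fixedCore_mem_K0 hf hfix) (M.fixedCore_mem_K0 hf fun σ => smul_zero σ)
  have h2 : f w - f 0 ∈ A.nonunits := (A.mem_nonunits_iff).2 (hpos f hf)
  have h3 := Fermat.Agent.Lib.InertiaField.div_mem A p hp hA h1 h2
  rw [← A.valuation_le_one_iff, map_div₀] at h3
  exact (div_le_one₀ (zero_lt_iff.2 h0)).1 h3

/-- `Model.not_pos_of_fixed` with Fontaine's lemma as a hypothesis. -/
theorem Model.fixedCore_not_pos (hp : p.Prime) (hp2 : p ≠ 2) (hA : A.LiesOverPrime p)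
    (M : Model A W)
    (heq : ∀ {c : Qb}, Small A p c → ∀ {w w' : W}, M.Cong c w w' → w = w')
    {w : W} (hw : w ≠ 0) (hfix : ∀ σ : ↥(Iner A), σ • w = w) : ¬ M.Pos w := fun hpos =>
  hw (heq (fixedCore_small_natCast hp hp2 hA) (M.fixedCore_cong hp hA hfix hpos))

end Fermat.Agent.S56.Flat
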