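/-
S56 / FLAT / block FD, node FD-B (architect helper116, proof helper40).
-/
import Fermat.Agent.S56.Flat.Depth.FixedCore
import Fermat.Agent.S56.Flat.Fon.Main

set_option autoImplicit false

namespace Fermat.Agent.S56.Flat

open Fermat.Agent.Lib.InertiaField

variable {A : ValuationSubring Qb} {p : ℕ}
variable {W : Type} [AddCommGroup W] [DistribMulAction ↥(Iner A) W]

/-- a nonzero point fixed by inertia does not reduce to `0` (here `e = 1 < p - 1` is used) -/
theorem Model.not_pos_of_fixed (hp : p.Prime) (hp2 : p ≠ 2) (hA : A.LiesOverPrime p) [Finite W]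
    (M : Model A W) (hpW : ∀ w : W, p • w = 0) {w : W} (hw : w ≠ 0)
    (hfix : ∀ σ : ↥(Iner A), σ • w = w) : ¬ M.Pos w :=
  M.fixedCore_not_pos hp hp2 hA (fun hc _ _ h => M.eq_of_cong hp hA hpW hc h) hw hfix

end Fermat.Agent.S56.Flat
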