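/-
S56 / FLAT / block FD, node FD-A (helper11): points reducing to `0` in the special fibre.
-/
import Fermat.Agent.S56.Flat.Defs
import Fermat.Agent.S56.Flat.Mod.Basic

set_option autoImplicit false

namespace Fermat.Agent.S56.Flat

open Fermat.Agent.Lib.InertiaField

variable {A : ValuationSubring Qb} {p : ℕ}
variable {W : Type} [AddCommGroup W] [DistribMulAction ↥(Iner A) W]

/-- congruent points have a small difference -/
theorem Model.cong_sub [Finite W] (M : Model A W) {c : Qb} {w w' : W} (h : M.Cong c w w') :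
    M.Cong c (w - w') 0 := by
  intro f hf
  obtain ⟨n, g, k, hg, hk, e⟩ := M.cosub hf
  have e1 : f (w - w') - f 0 = ∑ i, (g i w - g i w') * k i w' := by
    have e0 : f 0 = ∑ i, g i w' * k i w' := by rw [← e w' w', sub_self]
    rw [e w w', e0, ← Finset.sum_sub_distrib]
    exact Finset.sum_congr rfl fun i _ => by ring
  rw [e1]
  refine Valuation.map_sum_le _ fun i _ => ?_
  rw [map_mul]
  calc A.valuation (g i w - g i w') * A.valuation (k i w')
      ≤ A.valuation c * 1 :=
        mul_le_mul' (h (g i) (hg i)) ((A.valuation_le_one_iff _).2 (M.int _ (hk i) _))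
    _ = A.valuation c := mul_one _

theorem Model.pos_add (M : Model A W) {w w' : W} (h : M.Pos w) (h' : M.Pos w') :
    M.Pos (w + w') := by
  intro f hf
  obtain ⟨n, g, k, hg, hk, e⟩ := M.comul_cross hf
  have e1 : f (w + w') - f 0 =
      (∑ i, (g i w - g i 0) * (k i w' - k i 0)) + ((f w - f 0) + (f w' - f 0)) := by
    rw [← e w w']
    ring
  rw [e1]
  refine Valuation.map_add_lt _ ?_ (Valuation.map_add_lt _ (h f hf) (h' f hf))
  refine Valuation.map_sum_lt _ one_ne_zero fun i _ => ?_
  rw [map_mul]
  exact mul_lt_one_of_nonneg_of_lt_one_left zero_le (h (g i) (hg i)) (h' (k i) (hk i)).le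

theorem Model.pos_neg [Finite W] (M : Model A W) {w : W} (h : M.Pos w) : M.Pos (-w) := by
  intro f hf
  have := h _ (M.comp_neg_mem hf)
  simpa using this

theorem Model.pos_smul (M : Model A W) (σ : ↥(Iner A)) {w : W} (h : M.Pos w) :
    M.Pos (σ • w) := by
  intro f hf
  have e0 : f 0 = σ.1 (f 0) := by rw [← M.equiv f hf σ 0, smul_zero]
  have e1 : f (σ • w) - f 0 = σ.1 (f w - f 0) := by
    rw [map_sub, ← e0, M.equiv f hf σ w]
  rw [e1, ← ValuationSubring.mem_nonunits_iff]
  exact apply_mem_nonunits_of_mem_decomposition A (inertia_le_decomposition A σ.2)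
    ((ValuationSubring.mem_nonunits_iff A).2 (h f hf))

/-- inertia acts trivially on the special fibre -/
theorem Model.pos_smul_sub [Finite W] (M : Model A W) (σ : ↥(Iner A)) (w : W) :
    M.Pos (σ • w - w) := by
  intro f hf
  obtain ⟨n, g, k, hg, hk, e⟩ := M.cosub hf
  have e1 : f (σ • w - w) - f 0 = ∑ i, (σ.1 (g i w) - g i w) * k i w := by
    have e0 : f 0 = ∑ i, g i w * k i w := by rw [← e w w, sub_self]
    rw [e (σ • w) w, e0, ← Finset.sum_sub_distrib]
    exact Finset.sum_congr rfl fun i _ => by rw [M.equiv _ (hg i)]; ring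
  rw [e1]
  refine Valuation.map_sum_lt _ one_ne_zero fun i _ => ?_
  rw [map_mul]
  exact mul_lt_one_of_nonneg_of_lt_one_left zero_le
    ((ValuationSubring.mem_nonunits_iff A).1 (apply_sub_mem_nonunits A σ.2 (M.int _ (hg i) w)))
    ((A.valuation_le_one_iff _).2 (M.int _ (hk i) _))

theorem Model.pos_of_mem_augSub [Finite W] (M : Model A W) {w : W} (h : w ∈ augSub A W) :
    M.Pos w := by
  induction h using AddSubgroup.closure_induction with
  | mem x hx =>
    obtain ⟨σ, w, rfl⟩ := hx
    exact M.pos_smul_sub σ w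
  | zero =>
    intro f _
    rw [sub_self, map_zero]
    exact zero_lt_one
  | add x y _ _ hx hy => exact M.pos_add hx hy
  | neg x _ hx => exact M.pos_neg hx

end Fermat.Agent.S56.Flat
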