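/-
S56 / FLAT / FD-E (architect helper116, proof helper153): (ET), from `Flat/Depth/EtCore.lean` and
the nodes `Model.exists_quot`, `Model.pos_of_mem_augSub`, `Model.not_pos_of_fixed`.
-/
import Fermat.Agent.S56.Flat.Mod.Quot
import Fermat.Agent.S56.Flat.Depth.Pos
import Fermat.Agent.S56.Flat.Depth.Fixed
import Fermat.Agent.S56.Flat.Depth.EtCore

set_option autoImplicit false

namespace Fermat.Agent.S56.Flat

open Fermat.Agent.Lib.InertiaField

variable {A : ValuationSubring Qb} {p : ℕ}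
variable {W : Type} [AddCommGroup W] [DistribMulAction ↥(Iner A) W]

/-- (ET) `(I - 1) W` has no nonzero subquotient with trivial action of inertia. -/
theorem FlatLoc.le_of_trivial_subquotient (hp : p.Prime) (hp2 : p ≠ 2) (hA : A.LiesOverPrime p)
    [Finite W] (hpW : ∀ w : W, p • w = 0) (h : FlatLoc A W) (W₁ W₂ : AddSubgroup W)
    (h₂₁ : W₂ ≤ W₁) (h₁ : W₁ ≤ augSub A W)
    (hs₁ : ∀ (σ : ↥(Iner A)), ∀ w ∈ W₁, σ • w ∈ W₁)
    (hs₂ : ∀ (σ : ↥(Iner A)), ∀ w ∈ W₂, σ • w ∈ W₂)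
    (htriv : ∀ (σ : ↥(Iner A)), ∀ w ∈ W₁, σ • w - w ∈ W₂) : W₁ ≤ W₂ := by
  obtain ⟨M⟩ := h
  letI := quotAction W₂ hs₂
  exact etCore_le hpW M W₁ W₂ h₁ hs₂ htriv
    (M.exists_quot hp hA (quotMap W₂ hs₂) (quotMap_surjective W₂ hs₂))
    (fun _ hw => M.pos_of_mem_augSub hw)
    (fun M'' hpx _ hx0 hfix => M''.not_pos_of_fixed hp hp2 hA hpx hx0 hfix)

end Fermat.Agent.S56.Flat
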