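/-
S56 / FLAT / block FD (architect helper116), node FD-D: the maximal gauge of a model all of whose
points reduce to `0`, and additivity modulo higher order terms.
-/
import Fermat.Agent.S56.Flat.Mod.Basic

set_option autoImplicit false

namespace Fermat.Agent.S56.Flat

open Fermat.Agent.Lib.InertiaField

variable {A : ValuationSubring Qb} {p : ℕ}
variable {W : Type} [AddCommGroup W] [DistribMulAction ↥(Iner A) W]

/-- the value at `0` of a function of the order lies in `A0`. -/
private theorem leading_inA0_zero (M : Model A W) {f : W → Qb} (hf : f ∈ M.carrier) :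
    InA0 A (f 0) := by
  refine ⟨?_, M.int f hf 0⟩
  rw [mem_K0_iff]
  intro τ hτ
  have h := M.equiv f hf ⟨τ, hτ⟩ 0
  rw [smul_zero] at h
  exact h.symm

/-- the maximal gauge of a model all of whose points reduce to `0` -/
theorem Model.exists_max_gauge [Finite W] (M : Model A W) (hW : ∃ w : W, w ≠ 0)
    (hpos : ∀ w, M.Pos w) :
    ∃ f ∈ M.carrier, ∃ w₀ : W, f 0 = 0 ∧ f w₀ ≠ 0 ∧ A.valuation (f w₀) < 1 ∧
      ∀ g ∈ M.carrier, ∀ w, A.valuation (g w - g 0) ≤ A.valuation (f w₀) := by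
  obtain ⟨n, F, hF, hgen⟩ := M.fg
  obtain ⟨w₁, hw₁⟩ := hW
  -- expansion of differences
  have hexp : ∀ g ∈ M.carrier, ∃ a : Fin n → Qb, (∀ i, InA0 A (a i)) ∧
      ∀ w, g w - g 0 = ∑ i, a i * (F i w - F i 0) := by
    intro g hg
    obtain ⟨a, ha, hga⟩ := hgen g hg
    refine ⟨a, ha, fun w => ?_⟩
    rw [hga w, hga 0, ← Finset.sum_sub_distrib]
    exact Finset.sum_congr rfl fun i _ => by ring
  -- a function separating `w₁` from `0`
  have hsep : ∃ g ∈ M.carrier, g w₁ ≠ g 0 := by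
    by_contra hcon
    push Not at hcon
    exact hw₁ (M.sep w₁ 0 hcon)
  obtain ⟨g₁, hg₁, hg₁ne⟩ := hsep
  have hne : Nonempty (Fin n × W) := by
    obtain ⟨a, -, hga⟩ := hexp g₁ hg₁
    by_contra hemp
    have hFin : IsEmpty (Fin n) := by
      constructor
      intro i
      exact hemp ⟨(i, 0)⟩
    have h := hga w₁
    rw [Finset.univ_eq_empty, Finset.sum_empty] at h
    exact hg₁ne (sub_eq_zero.1 h)
  obtain ⟨⟨i₀, w₀⟩, hmax⟩ :=
    Finite.exists_max (fun x : Fin n × W => A.valuation (F x.1 x.2 - F x.1 0))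
  have hbound : ∀ g ∈ M.carrier, ∀ w,
      A.valuation (g w - g 0) ≤ A.valuation (F i₀ w₀ - F i₀ 0) := by
    intro g hg w
    obtain ⟨a, ha, hga⟩ := hexp g hg
    rw [hga w]
    refine Valuation.map_sum_le _ fun i _ => ?_
    rw [map_mul]
    have h1 : A.valuation (a i) ≤ 1 := (A.valuation_le_one_iff _).2 (ha i).2
    have h2 := hmax (i, w)
    calc A.valuation (a i) * A.valuation (F i w - F i 0)
        ≤ 1 * A.valuation (F i₀ w₀ - F i₀ 0) := mul_le_mul' h1 h2
      _ = _ := one_mul _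
  refine ⟨F i₀ - (fun _ : W => F i₀ 0), ?_, w₀, ?_, ?_, ?_, ?_⟩
  · exact sub_mem (hF i₀) (M.const _ (leading_inA0_zero M (hF i₀)))
  · simp
  · intro h0
    have h0' : F i₀ w₀ - F i₀ 0 = 0 := h0
    have h := hbound g₁ hg₁ w₁
    rw [h0', map_zero, le_zero_iff, map_eq_zero] at h
    exact hg₁ne (sub_eq_zero.1 h)
  · exact hpos w₀ (F i₀) (hF i₀)
  · exact hbound

/-- additivity modulo higher order terms -/
theorem Model.val_add_lt (M : Model A W) {c : Qb} (hc : A.valuation c < 1) (hc0 : c ≠ 0)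
    (hle : ∀ g ∈ M.carrier, ∀ w, A.valuation (g w - g 0) ≤ A.valuation c)
    {f : W → Qb} (hf : f ∈ M.carrier) (hf0 : f 0 = 0) (w w' : W) :
    A.valuation (f (w + w') - f w - f w') < A.valuation c := by
  obtain ⟨n, g, h, hg, hh, hgh⟩ := M.comul_cross hf
  have hv0 : A.valuation c ≠ 0 := (map_ne_zero _).2 hc0
  have key := hgh w w'
  rw [hf0, add_zero] at key
  rw [key]
  refine Valuation.map_sum_lt _ hv0 fun i _ => ?_
  rw [map_mul]
  calc A.valuation (g i w - g i 0) * A.valuation (h i w' - h i 0)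
      ≤ A.valuation c * A.valuation c := mul_le_mul' (hle _ (hg i) w) (hle _ (hh i) w')
    _ < A.valuation c * 1 := by
        exact (mul_lt_mul_iff_right₀ (zero_lt_iff.2 hv0)).2 hc
    _ = _ := mul_one _

end Fermat.Agent.S56.Flat
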