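/-
S56 / FLAT / block FD (architect helper116), node FD-F (helper145): the core of (TC), the leading
term map of an irreducible flat module.  The results of the nodes FD-A (`Depth/Pos`), FD-D
(`Depth/Leading`) and F1 (`Fon/Main`) for the given model are HYPOTHESES here, so that this file
depends on nobody; `Depth/Tame.lean` is the wrapper.
-/
import Fermat.Agent.S56.Flat.Defs
import Fermat.Agent.S05.Inertia

set_option autoImplicit false

namespace Fermat.Agent.S56.Flat

open Fermat.Agent.Lib.InertiaField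

variable {A : ValuationSubring Qb} {p : ℕ}
variable {W : Type} [AddCommGroup W] [DistribMulAction ↥(Iner A) W]

theorem tameCore_val_apply (σ : ↥(Iner A)) (x : Qb) : A.valuation (σ.1 x) = A.valuation x := by
  have : Algebra.IsAlgebraic ℚ Qb := AlgebraicClosure.isAlgebraic ℚ
  exact S05.inertia_valuation_eq A σ.2 x

/-- (TC), with the inputs as hypotheses. -/
theorem tameCore_leading_term (M : Model A W)
    (pos_add : ∀ w w' : W, M.Pos w → M.Pos w' → M.Pos (w + w'))
    (pos_neg : ∀ w : W, M.Pos w → M.Pos (-w))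
    (pos_smul : ∀ (σ : ↥(Iner A)) (w : W), M.Pos w → M.Pos (σ • w))
    (pos_smul_sub : ∀ (σ : ↥(Iner A)) (w : W), M.Pos (σ • w - w))
    (max_gauge : (∃ w : W, w ≠ 0) → (∀ w, M.Pos w) →
      ∃ f ∈ M.carrier, ∃ w₀ : W, f 0 = 0 ∧ f w₀ ≠ 0 ∧ A.valuation (f w₀) < 1 ∧
        ∀ g ∈ M.carrier, ∀ w, A.valuation (g w - g 0) ≤ A.valuation (f w₀))
    (val_add_lt : ∀ c : Qb, A.valuation c < 1 → c ≠ 0 →
      (∀ g ∈ M.carrier, ∀ w, A.valuation (g w - g 0) ≤ A.valuation c) →
      ∀ f ∈ M.carrier, f 0 = 0 → ∀ w w' : W,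
        A.valuation (f (w + w') - f w - f w') < A.valuation c)
    (eq_of_cong : ∀ c : Qb, Small A p c → ∀ w w' : W, M.Cong c w w' → w = w')
    (hirr : ∀ W' : AddSubgroup W, (∀ (σ : ↥(Iner A)), ∀ w ∈ W', σ • w ∈ W') → W' = ⊥ ∨ W' = ⊤) :
    (∀ (σ : ↥(Iner A)) (w : W), σ • w = w) ∨
    ∃ (c : Qb) (y : W → Qb), A.valuation c < 1 ∧ A.valuation (p : Qb) ≤ A.valuation c ^ (p - 1) ∧
      (∀ (σ : ↥(Iner A)) (w : W), y (σ • w) = σ.1 (y w)) ∧
      (∀ w, w ≠ 0 → A.valuation (y w) = A.valuation c) ∧ y 0 = 0 ∧
      (∀ w w', A.valuation (y (w + w') - y w - y w') < A.valuation c) := by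
  -- the subgroup of the points reducing to `0`
  let Wp : AddSubgroup W :=
    { carrier := {w | M.Pos w}
      zero_mem' := fun f _ => by
        rw [sub_self, map_zero]
        exact zero_lt_one
      add_mem' := fun {a b} ha hb => pos_add a b ha hb
      neg_mem' := fun {a} ha => pos_neg a ha }
  rcases hirr Wp (fun σ w hw => pos_smul σ w hw) with hbot | htop
  · left
    intro σ w
    have h1 : σ • w - w ∈ Wp := pos_smul_sub σ w
    rw [hbot, AddSubgroup.mem_bot, sub_eq_zero] at h1
    exact h1
  by_cases hW : ∃ w : W, w ≠ 0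
  swap
  · left
    push Not at hW
    intro σ w
    rw [hW w, smul_zero]
  right
  have hpos : ∀ w, M.Pos w := fun w => by
    have h1 : w ∈ Wp := by
      rw [htop]
      exact AddSubgroup.mem_top w
    exact h1
  obtain ⟨f, hf, w₀, hf0, hfw₀, hlt, hmax⟩ := max_gauge hW hpos
  have hadd := val_add_lt (f w₀) hlt hfw₀ hmax f hf hf0
  have hc0 : 0 < A.valuation (f w₀) := zero_lt_iff.2 ((map_ne_zero _).2 hfw₀)
  -- the subgroup of the points of higher order
  let W' : AddSubgroup W :=
    { carrier := {w | A.valuation (f w) < A.valuation (f w₀)}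
      zero_mem' := by
        show A.valuation (f 0) < A.valuation (f w₀)
        rw [hf0, map_zero]
        exact hc0
      add_mem' := fun {a b} ha hb => by
        show A.valuation (f (a + b)) < A.valuation (f w₀)
        have e1 : f (a + b) = (f (a + b) - f a - f b) + f a + f b := by ring
        rw [e1]
        exact lt_of_le_of_lt (A.valuation.map_add _ _) (max_lt
          (lt_of_le_of_lt (A.valuation.map_add _ _) (max_lt (hadd a b) ha)) hb)
      neg_mem' := fun {a} ha => by
        show A.valuation (f (-a)) < A.valuation (f w₀)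
        have h1 := hadd a (-a)
        rw [add_neg_cancel, hf0] at h1
        have e1 : f (-a) = -(0 - f a - f (-a)) - f a := by ring
        rw [e1]
        refine lt_of_le_of_lt (A.valuation.map_sub _ _) (max_lt ?_ ha)
        rw [Valuation.map_neg]
        exact h1 }
  have hW'bot : W' = ⊥ := by
    rcases hirr W' (fun σ w hw => by
      show A.valuation (f (σ • w)) < A.valuation (f w₀)
      rw [M.equiv f hf, tameCore_val_apply]
      exact hw) with h1 | h1
    · exact h1
    · exfalso
      have h2 : w₀ ∈ W' := by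
        rw [h1]
        exact AddSubgroup.mem_top w₀
      have h3 : A.valuation (f w₀) < A.valuation (f w₀) := h2
      exact lt_irrefl _ h3
  refine ⟨f w₀, f, hlt, ?_, M.equiv f hf, ?_, hf0, hadd⟩
  · by_contra hcon
    rw [not_le] at hcon
    have h1 : w₀ = 0 := eq_of_cong (f w₀) hcon w₀ 0 (fun g hg => hmax g hg w₀)
    rw [h1] at hfw₀
    exact hfw₀ hf0
  · intro w hw
    refine le_antisymm ?_ ?_
    · have h1 := hmax f hf w
      rwa [hf0, sub_zero] at h1
    · by_contra hcon
      rw [not_le] at hcon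
      have h1 : w ∈ W' := hcon
      rw [hW'bot, AddSubgroup.mem_bot] at h1
      exact hw h1

end Fermat.Agent.S56.Flat
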