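/-
S56 / FLAT / block FD (architect helper116), node FD-F (helper145): (TC), wrapper around the
sorry-free `Depth/TameCore.lean`.
-/
import Fermat.Agent.S56.Flat.Depth.TameCore
import Fermat.Agent.S56.Flat.Depth.Pos
import Fermat.Agent.S56.Flat.Depth.Leading
import Fermat.Agent.S56.Flat.Fon.Main

set_option autoImplicit false

namespace Fermat.Agent.S56.Flat

open Fermat.Agent.Lib.InertiaField

variable {A : ValuationSubring Qb} {p : ℕ}
variable {W : Type} [AddCommGroup W] [DistribMulAction ↥(Iner A) W]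

/-- (TC) the leading term map of an irreducible flat module. -/
theorem FlatLoc.exists_leading_term (hp : p.Prime) (hp2 : p ≠ 2) (hA : A.LiesOverPrime p)
    [Finite W] (hpW : ∀ w : W, p • w = 0) (h : FlatLoc A W)
    (hirr : ∀ W' : AddSubgroup W, (∀ (σ : ↥(Iner A)), ∀ w ∈ W', σ • w ∈ W') → W' = ⊥ ∨ W' = ⊤) :
    (∀ (σ : ↥(Iner A)) (w : W), σ • w = w) ∨
    ∃ (c : Qb) (y : W → Qb), A.valuation c < 1 ∧ A.valuation (p : Qb) ≤ A.valuation c ^ (p - 1) ∧
      (∀ (σ : ↥(Iner A)) (w : W), y (σ • w) = σ.1 (y w)) ∧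
      (∀ w, w ≠ 0 → A.valuation (y w) = A.valuation c) ∧ y 0 = 0 ∧
      (∀ w w', A.valuation (y (w + w') - y w - y w') < A.valuation c) := by
  obtain ⟨M⟩ := h
  exact tameCore_leading_term M (fun _ _ h h' => M.pos_add h h') (fun _ h => M.pos_neg h)
    (fun σ _ h => M.pos_smul σ h) M.pos_smul_sub M.exists_max_gauge
    (fun _ hc hc0 hle _ hf hf0 w w' => M.val_add_lt hc hc0 hle hf hf0 w w')
    (fun _ hc _ _ h => M.eq_of_cong hp hA hpW hc h) hirr

end Fermat.Agent.S56.Flat
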