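/-
S56 / FLAT / block FD, node FD-G1 (owner helper47): the valuation of an element with a small
inertia orbit; the valuation of `ζ - 1`.
-/
import Fermat.Agent.S56.Flat.Defs

set_option autoImplicit false

namespace Fermat.Agent.S56.Flat

open Fermat.Agent.Lib.InertiaField

variable {A : ValuationSubring Qb} {p : ℕ}

/-- elements of the decomposition group preserve the order of the valuations -/
private theorem orbitVal_le_of_le {τ : GQ} (hτ : τ ∈ A.decompositionSubgroup ℚ) (x y : Qb)
    (h : A.valuation x ≤ A.valuation y) : A.valuation (τ x) ≤ A.valuation (τ y) := by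
  rcases eq_or_ne y 0 with rfl | hy
  · rw [map_zero, le_zero_iff, map_eq_zero] at h
    rw [h]
  · have hy' : A.valuation y ≠ 0 := (map_ne_zero _).2 hy
    have hτy : A.valuation (τ y) ≠ 0 := (map_ne_zero _).2 ((map_ne_zero τ).2 hy)
    have h1 : x / y ∈ A := by
      rw [← A.valuation_le_one_iff, map_div₀]
      exact (div_le_one₀ (zero_lt_iff.2 hy')).2 h
    have h2 := apply_mem_of_mem_decomposition A hτ h1
    rw [map_div₀, ← A.valuation_le_one_iff, map_div₀] at h2
    exact (div_le_one₀ (zero_lt_iff.2 hτy)).1 h2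

private theorem orbitVal_lt_of_lt {τ : GQ} (hτ : τ ∈ A.decompositionSubgroup ℚ) (x y : Qb)
    (h : A.valuation x < A.valuation y) : A.valuation (τ x) < A.valuation (τ y) := by
  rw [← not_le] at h ⊢
  intro h'
  apply h
  have := orbitVal_le_of_le (inv_mem hτ) _ _ h'
  simpa using this

/-- an element of the decomposition group preserves the valuation of an element with a finite
orbit -/
private theorem orbitVal_valuation_eq {σ : GQ} (hσ : σ ∈ A.decompositionSubgroup ℚ) (y : Qb)
    (s : Finset Qb) (hs : ∀ k : ℕ, (σ ^ k) y ∈ s) : A.valuation (σ y) = A.valuation y := by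
  have hfin : ¬ Function.Injective (fun k : ℕ => (σ ^ k) y) := by
    intro hinj
    exact (Set.infinite_range_of_injective hinj)
      (s.finite_toSet.subset (by rintro _ ⟨k, rfl⟩; exact hs k))
  have hsucc : ∀ k : ℕ, (σ ^ (k + 1)) y = (σ ^ k) (σ y) := fun k => by
    rw [pow_succ]; rfl
  by_contra hne
  apply hfin
  rcases lt_or_gt_of_ne hne with hlt | hgt
  · have hanti : StrictAnti (fun k : ℕ => A.valuation ((σ ^ k) y)) :=
      strictAnti_nat_of_succ_lt fun k => by
        show A.valuation ((σ ^ (k + 1)) y) < A.valuation ((σ ^ k) y)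
        rw [hsucc]
        exact orbitVal_lt_of_lt (pow_mem hσ k) _ _ hlt
    exact fun a b hab => hanti.injective (congrArg A.valuation hab)
  · have hmono : StrictMono (fun k : ℕ => A.valuation ((σ ^ k) y)) :=
      strictMono_nat_of_lt_succ fun k => by
        show A.valuation ((σ ^ k) y) < A.valuation ((σ ^ (k + 1)) y)
        rw [hsucc]
        exact orbitVal_lt_of_lt (pow_mem hσ k) _ _ hgt
    exact fun a b hab => hmono.injective (congrArg A.valuation hab)

/-- **FD-G1.**  The valuation of an element whose inertia orbit is `s`. -/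
theorem exists_zpow_of_orbit (hp : p.Prime) (hA : A.LiesOverPrime p) (y : Qb) (hy : y ≠ 0)
    (s : Finset Qb) (hys : y ∈ s) (hs : ∀ σ : ↥(Iner A), ∀ z ∈ s, σ.1 z ∈ s)
    (horb : ∀ z ∈ s, ∃ σ : ↥(Iner A), z = σ.1 y) :
    ∃ k : ℤ, A.valuation y ^ s.card = A.valuation (p : Qb) ^ k := by
  classical
  -- all the elements of `s` have the same valuation
  have hval : ∀ z ∈ s, A.valuation z = A.valuation y := by
    intro z hz
    obtain ⟨σ, rfl⟩ := horb z hz
    refine orbitVal_valuation_eq (inertia_le_decomposition A σ.2) y s fun k => ?_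
    exact hs (σ ^ k) y hys
  -- the product is fixed by inertia
  have hfix : ∏ z ∈ s, z ∈ K0 A := by
    rw [mem_K0_iff]
    intro τ hτ
    rw [map_prod]
    refine Finset.prod_bij' (fun z _ => τ z) (fun z _ => τ⁻¹ z) (fun z hz => hs ⟨τ, hτ⟩ z hz)
      (fun z hz => hs ⟨τ, hτ⟩⁻¹ z hz) (fun z _ => ?_) (fun z _ => ?_) (fun z _ => rfl)
    · exact τ.symm_apply_apply z
    · exact τ.apply_symm_apply z
  have hne : ∏ z ∈ s, z ≠ 0 := by
    rw [Finset.prod_ne_zero_iff]
    intro z hz
    obtain ⟨σ, rfl⟩ := horb z hz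
    exact (map_ne_zero σ.1).2 hy
  obtain ⟨k, u, -, hu, hu', hk⟩ := exists_zpow_mul_unit A p hp hA hfix hne
  have hu1 : A.valuation u = 1 := by
    have h1 : A.valuation u ≤ 1 := (A.valuation_le_one_iff _).2 hu
    have h2 : A.valuation u⁻¹ ≤ 1 := (A.valuation_le_one_iff _).2 hu'
    have hu0 : u ≠ 0 := by
      rintro rfl
      rw [mul_zero] at hk
      exact hne hk
    rw [map_inv₀] at h2
    exact le_antisymm h1 ((inv_le_one₀ (zero_lt_iff.2 ((map_ne_zero _).2 hu0))).1 h2)
  refine ⟨k, ?_⟩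
  have h3 := congrArg A.valuation hk
  rw [map_prod, Finset.prod_congr rfl hval, Finset.prod_const, map_mul, map_zpow₀, hu1,
    mul_one] at h3
  exact h3

private theorem orbitVal_one_sub_pow_le {x : Qb} (hx : x ∈ A) (k : ℕ) :
    A.valuation (1 - x ^ k) ≤ A.valuation (1 - x) := by
  rw [← geom_sum_mul_neg, map_mul]
  have : A.valuation (∑ i ∈ Finset.range k, x ^ i) ≤ 1 :=
    (A.valuation_le_one_iff _).2 (sum_mem fun i _ => pow_mem hx i)
  exact mul_le_of_le_one_left' this

private theorem orbitVal_one_sub_zeta_pow (hp : p.Prime) {ζ : Qb} (hζ : IsPrimitiveRoot ζ p)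
    (k : ℕ) (hk : ¬ p ∣ k) : A.valuation (1 - ζ ^ k) = A.valuation (1 - ζ) := by
  have hζ1 : A.valuation ζ = 1 := by
    have h : A.valuation ζ ^ p = 1 := by rw [← map_pow, hζ.pow_eq_one, map_one]
    exact (pow_eq_one_iff.1 h).resolve_right hp.ne_zero
  have hζA : ζ ∈ A := (A.valuation_le_one_iff _).1 hζ1.le
  apply le_antisymm (orbitVal_one_sub_pow_le hζA k)
  have hcop : Nat.Coprime k p := ((Nat.Prime.coprime_iff_not_dvd hp).2 hk).symm
  obtain ⟨k', _, hk'⟩ := Nat.exists_mul_mod_eq_one_of_coprime hcop hp.one_lt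
  have h1 : (ζ ^ k) ^ k' = ζ := by
    rw [← pow_mul, ← Nat.mod_add_div (k * k') p, hk', pow_add, pow_mul, hζ.pow_eq_one, one_pow,
      mul_one, pow_one]
  calc A.valuation (1 - ζ) = A.valuation (1 - (ζ ^ k) ^ k') := by rw [h1]
    _ ≤ _ := orbitVal_one_sub_pow_le (pow_mem hζA k) k'

set_option linter.unusedVariables false in
/-- `v(ζ - 1) = v(p) / (p - 1)`. -/
theorem val_zeta_sub_one (hp : p.Prime) (hA : A.LiesOverPrime p) (ζ : Qb) (hζ : ζ ^ p = 1)
    (hζ1 : ζ ≠ 1) : A.valuation (ζ - 1) ^ (p - 1) = A.valuation (p : Qb) := by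
  have : Fact p.Prime := ⟨hp⟩
  have : NeZero p := ⟨hp.ne_zero⟩
  have hprim : IsPrimitiveRoot ζ p := by
    rw [← orderOf_eq_prime hζ hζ1]
    exact IsPrimitiveRoot.orderOf ζ
  have h1 : (p : Qb) = ∏ μ ∈ primitiveRoots p Qb, (1 - μ) := by
    have h2 := congrArg (Polynomial.eval 1)
      (Polynomial.cyclotomic_eq_prod_X_sub_primitiveRoots hprim)
    rw [Polynomial.eval_one_cyclotomic_prime, Polynomial.eval_prod] at h2
    simpa using h2
  rw [Valuation.map_sub_swap, h1, map_prod]
  have h3 : ∀ μ ∈ primitiveRoots p Qb, A.valuation (1 - μ) = A.valuation (1 - ζ) := by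
    intro μ hμ
    rw [mem_primitiveRoots hp.pos, hprim.isPrimitiveRoot_iff] at hμ
    obtain ⟨i, _, hi, rfl⟩ := hμ
    exact orbitVal_one_sub_zeta_pow hp hprim i ((Nat.Prime.coprime_iff_not_dvd hp).1 hi.symm)
  rw [Finset.prod_congr rfl h3, Finset.prod_const, hprim.card_primitiveRoots,
    Nat.totient_prime hp]

end Fermat.Agent.S56.Flat
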