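/-
S56 / FLAT / FD-G2 (helper272): the core of (TC1).  A line with a leading term map: inertia acts
through the cyclotomic character.  The two valuation inputs of `Depth/OrbitVal.lean` enter as
hypotheses `OrbitStmt`, `ZetaStmt`.
-/
import Fermat.Agent.S56.Flat.Defs

set_option autoImplicit false

namespace Fermat.Agent.S56.Flat

open Fermat.Agent.Lib.InertiaField

namespace Tame1

variable {A : ValuationSubring Qb} {p : ℕ}

/-- the statement of `exists_zpow_of_orbit` -/
def OrbitStmt (A : ValuationSubring Qb) (p : ℕ) : Prop :=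
  ∀ (y : Qb), y ≠ 0 → ∀ (s : Finset Qb), y ∈ s → (∀ σ : ↥(Iner A), ∀ z ∈ s, σ.1 z ∈ s) →
    (∀ z ∈ s, ∃ σ : ↥(Iner A), z = σ.1 y) →
    ∃ k : ℤ, A.valuation y ^ s.card = A.valuation (p : Qb) ^ k

/-- the statement of `val_zeta_sub_one` -/
def ZetaStmt (A : ValuationSubring Qb) (p : ℕ) : Prop :=
  ∀ ζ : Qb, ζ ^ p = 1 → ζ ≠ 1 → A.valuation (ζ - 1) ^ (p - 1) = A.valuation (p : Qb)

variable {W : Type} [AddCommGroup W] [DistribMulAction ↥(Iner A) W]

omit [DistribMulAction ↥(Iner A) W] in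
/-- `y (n • w) ≡ n * y w`. -/
theorem val_nsmul {c : Qb} (hc0 : 0 < A.valuation c) {y : W → Qb} (hy0 : y 0 = 0)
    (hadd : ∀ w w', A.valuation (y (w + w') - y w - y w') < A.valuation c) (w : W) (n : ℕ) :
    A.valuation (y (n • w) - n * y w) < A.valuation c := by
  induction n with
  | zero => simpa [hy0] using hc0
  | succ n ih =>
    have e : y ((n + 1) • w) - ((n + 1 : ℕ) : Qb) * y w
        = (y (n • w + w) - y (n • w) - y w) + (y (n • w) - n * y w) := by
      rw [succ_nsmul]; push_cast; ring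
    rw [e]
    exact Valuation.map_add_lt _ (hadd _ _) ih

/-- `(ζ ^ n - 1) / (ζ - 1) ≡ n`. -/
theorem geom {ζ : Qb} (hζ : ζ ∈ A) (n : ℕ) :
    ∃ g ∈ A, ζ ^ n - 1 = (ζ - 1) * g ∧ A.valuation (g - n) ≤ A.valuation (ζ - 1) := by
  induction n with
  | zero => exact ⟨0, zero_mem A, by simp, by simp⟩
  | succ n ih =>
    obtain ⟨g, hg, h1, h2⟩ := ih
    refine ⟨ζ * g + 1, add_mem (mul_mem hζ hg) (one_mem A), ?_, ?_⟩
    · have : ζ ^ (n + 1) - 1 = ζ * (ζ ^ n - 1) + (ζ - 1) := by ring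
      rw [this, h1]; ring
    · have e : ζ * g + 1 - ((n + 1 : ℕ) : Qb) = (ζ - 1) * g + (g - n) := by push_cast; ring
      rw [e]
      refine (Valuation.map_add_le _ ?_ h2)
      rw [map_mul]
      exact mul_le_of_le_one_right' ((A.valuation_le_one_iff _).2 hg)

/-- the valuation of the leading term. -/
theorem val_pow_eq (hp : p.Prime) (hA : A.LiesOverPrime p) (hOrb : OrbitStmt A p) [Finite W]
    (hcard : Nat.card W = p) {c : Qb} {y : W → Qb} (hc1 : A.valuation c < 1)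
    (hpc : A.valuation (p : Qb) ≤ A.valuation c ^ (p - 1))
    (hequiv : ∀ (σ : ↥(Iner A)) (w : W), y (σ • w) = σ.1 (y w))
    (hval : ∀ w, w ≠ 0 → A.valuation (y w) = A.valuation c) (hc0 : c ≠ 0) (w : W) (hw : w ≠ 0) :
    A.valuation (y w) ^ (p - 1) = A.valuation (p : Qb) := by
  classical
  haveI := Fintype.ofFinite W
  have hy0 : y w ≠ 0 := by
    intro h
    have := hval w hw
    rw [h, map_zero] at this
    exact hc0 ((map_eq_zero _).1 this.symm)
  set s : Finset Qb := ((Finset.univ.erase (0 : W)).image y).filter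
    (fun z => ∃ σ : ↥(Iner A), z = σ.1 (y w)) with hs
  have hmem : ∀ σ : ↥(Iner A), σ.1 (y w) ∈ s := by
    intro σ
    rw [hs, Finset.mem_filter, Finset.mem_image]
    refine ⟨⟨σ • w, ?_, hequiv σ w⟩, σ, rfl⟩
    rw [Finset.mem_erase]
    exact ⟨(smul_ne_zero_iff_ne σ).2 hw, Finset.mem_univ _⟩
  have hys : y w ∈ s := by simpa using hmem 1
  have hstab : ∀ σ : ↥(Iner A), ∀ z ∈ s, σ.1 z ∈ s := by
    intro σ z hz
    obtain ⟨τ, rfl⟩ := (Finset.mem_filter.1 hz).2
    exact hmem (σ * τ)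
  have horb : ∀ z ∈ s, ∃ σ : ↥(Iner A), z = σ.1 (y w) := fun z hz => (Finset.mem_filter.1 hz).2
  obtain ⟨k, hk⟩ := hOrb (y w) hy0 s hys hstab horb
  have hcs : s.card ≤ p - 1 := by
    refine (Finset.card_filter_le _ _).trans (Finset.card_image_le.trans ?_)
    rw [Finset.card_erase_of_mem (Finset.mem_univ _), Finset.card_univ, ← Nat.card_eq_fintype_card,
      hcard]
  have hcs0 : s.card ≠ 0 := Finset.card_ne_zero_of_mem hys
  have hvy : A.valuation (y w) = A.valuation c := hval w hw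
  have hp1 : A.valuation (p : Qb) < 1 := (A.mem_nonunits_iff).1 hA
  have hp0 : 0 < A.valuation (p : Qb) :=
    zero_lt_iff.2 ((map_ne_zero _).2 (Nat.cast_ne_zero.2 hp.ne_zero))
  have h1 : A.valuation (y w) ^ s.card < 1 := by
    rw [hvy]; exact pow_lt_one₀ zero_le hc1 hcs0
  rw [hk] at h1
  have hk0 : 0 < k := (zpow_lt_one_iff_right_of_lt_one₀ hp0 hp1).1 h1
  have h2 : A.valuation (p : Qb) ^ k ≤ A.valuation (p : Qb) := by
    have := zpow_le_zpow_right_of_le_one₀ hp0 hp1.le (show (1 : ℤ) ≤ k by omega)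
    simpa using this
  have h3 : A.valuation (y w) ^ (p - 1) ≤ A.valuation (y w) ^ s.card := by
    rw [hvy]; exact pow_le_pow_of_le_one zero_le hc1.le hcs
  refine le_antisymm (h3.trans (hk ▸ h2)) ?_
  rw [hvy]; exact hpc

/-- **Core of (TC1).** -/
theorem cyclotomic (hp : p.Prime) (hA : A.LiesOverPrime p) (hOrb : OrbitStmt A p)
    (hZeta : ZetaStmt A p) [Finite W] (hcard : Nat.card W = p) {c : Qb} {y : W → Qb}
    (hc1 : A.valuation c < 1) (hpc : A.valuation (p : Qb) ≤ A.valuation c ^ (p - 1))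
    (hequiv : ∀ (σ : ↥(Iner A)) (w : W), y (σ • w) = σ.1 (y w))
    (hval : ∀ w, w ≠ 0 → A.valuation (y w) = A.valuation c) (hy0 : y 0 = 0)
    (hadd : ∀ w w', A.valuation (y (w + w') - y w - y w') < A.valuation c)
    (w : W) (hw : w ≠ 0) (hpw : p • w = 0) (σ : ↥(Iner A)) (n : ℕ) (hn : σ • w = n • w)
    (ζ : Qb) (n' : ℕ) (hζ : ζ ^ p = 1) (hζ1 : ζ ≠ 1) (hσζ : σ.1 ζ = ζ ^ n') :
    σ • w = n' • w := by
  have hp1 : A.valuation (p : Qb) < 1 := (A.mem_nonunits_iff).1 hA
  have hpQ : (p : Qb) ≠ 0 := Nat.cast_ne_zero.2 hp.ne_zero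
  have hc0 : c ≠ 0 := by
    rintro rfl
    rw [map_zero, zero_pow (by have := hp.two_le; omega)] at hpc
    exact (map_ne_zero A.valuation).2 hpQ (le_antisymm hpc zero_le)
  have hc0' : 0 < A.valuation c := zero_lt_iff.2 ((map_ne_zero _).2 hc0)
  have hvy : A.valuation (y w) = A.valuation c := hval w hw
  have hpm : p - 1 ≠ 0 := by have := hp.two_le; omega
  -- the valuation of `π = ζ - 1`
  have hπ0 : ζ - 1 ≠ 0 := sub_ne_zero.2 hζ1
  have hvπ : A.valuation (ζ - 1) = A.valuation (y w) := by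
    have h1 := val_pow_eq hp hA hOrb hcard hc1 hpc hequiv hval hc0 w hw
    have h2 := hZeta ζ hζ hζ1
    exact (pow_left_inj₀ zero_le zero_le hpm).1 (h2.trans h1.symm)
  have hζA : ζ ∈ A := by
    rw [← A.valuation_le_one_iff]
    exact (Hensel.valuation_eq_one_of_pow A hp.ne_zero (by rw [hζ, map_one])).le
  obtain ⟨g, hg, hg1, hg2⟩ := geom hζA n'
  -- the unit `u`
  set u : Qb := y w / (ζ - 1) with hu
  have hvu : A.valuation u = 1 := by
    rw [hu, map_div₀, hvπ]
    exact div_self ((map_ne_zero _).2 (by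
      intro h; rw [h, map_zero] at hvy; exact hc0'.ne hvy))
  have huA : u ∈ A := (A.valuation_le_one_iff _).1 hvu.le
  have hyu : y w = u * (ζ - 1) := by rw [hu, div_mul_cancel₀ _ hπ0]
  have hσu : σ.1 u - u ∈ A.nonunits := apply_sub_mem_nonunits A σ.2 huA
  have hgn : g - n' ∈ A.nonunits := by
    rw [A.mem_nonunits_iff]
    exact lt_of_le_of_lt hg2 (by rw [hvπ, hvy]; exact hc1)
  have ht : (σ.1 u - u) * g + (g - n') * u ∈ A.nonunits :=
    Hensel.nonunits_add A (Unram.mul_mem_nonunits hσu hg) (Unram.mul_mem_nonunits hgn huA)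
  have e1 : σ.1 (y w) - n' * y w = (ζ - 1) * ((σ.1 u - u) * g + (g - n') * u) := by
    have : σ.1 (y w) = σ.1 u * (ζ ^ n' - 1) := by
      rw [hyu, map_mul, map_sub, map_one, hσζ]
    rw [this, hg1, hyu]
    ring
  have h1 : A.valuation (σ.1 (y w) - n' * y w) < A.valuation c := by
    rw [e1, map_mul, hvπ, hvy]
    have := (A.mem_nonunits_iff).1 ht
    calc A.valuation c * A.valuation ((σ.1 u - u) * g + (g - n') * u)
        < A.valuation c * 1 := by
          exact (mul_lt_mul_iff_right₀ hc0').2 this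
      _ = A.valuation c := mul_one _
  have h2 : A.valuation (σ.1 (y w) - n * y w) < A.valuation c := by
    rw [← hequiv, hn]
    exact val_nsmul hc0' hy0 hadd w n
  have h3 : A.valuation ((((n : ℤ) - n' : ℤ) : Qb) * y w) < A.valuation c := by
    have e : (((n : ℤ) - n' : ℤ) : Qb) * y w
        = (σ.1 (y w) - n' * y w) - (σ.1 (y w) - n * y w) := by push_cast; ring
    rw [e]
    exact Valuation.map_sub_lt _ h1 h2
  have hdvd : (p : ℤ) ∣ (n : ℤ) - n' := by
    by_contra hnd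
    rw [map_mul, Unram.valuation_intCast_eq_one hp hA hnd, one_mul, hvy] at h3
    exact lt_irrefl _ h3
  obtain ⟨t, ht⟩ := hdvd
  rw [hn]
  have e : (n : ℤ) • w = (n' : ℤ) • w := by
    have : (n : ℤ) = n' + t * p := by rw [mul_comm t]; omega
    rw [this, add_smul, mul_smul, natCast_zsmul w p, hpw, smul_zero, add_zero]
  simpa using e

end Tame1

end Fermat.Agent.S56.Flat
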