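/-
S56 / FLAT / FD-G2 (helper272): (TC1) with the conclusion of (TC) for the line `ℤ w` as a hypothesis.
Sorry-free; the verbatim wrapper is `Flat/Depth/Tame1.lean` (needs `Flat/Depth/Tame.lean`).
-/
import Fermat.Agent.S56.Flat.Depth.Tame1Core
import Fermat.Agent.S56.Flat.Depth.SubAction
import Fermat.Agent.S56.Flat.Depth.OrbitVal
import Fermat.Agent.S56.Flat.Mod.Sub

set_option autoImplicit false

namespace Fermat.Agent.S56.Flat

open Fermat.Agent.Lib.InertiaField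

variable {A : ValuationSubring Qb} {p : ℕ}
variable {W : Type} [AddCommGroup W] [DistribMulAction ↥(Iner A) W]

/-- the statement of (TC) `FlatLoc.exists_leading_term` -/
def Tame1.TCStmt (A : ValuationSubring Qb) (p : ℕ) : Prop :=
  ∀ (W : Type) [AddCommGroup W] [DistribMulAction ↥(Iner A) W] [Finite W],
    (∀ w : W, p • w = 0) → FlatLoc A W →
    (∀ W' : AddSubgroup W, (∀ (σ : ↥(Iner A)), ∀ w ∈ W', σ • w ∈ W') → W' = ⊥ ∨ W' = ⊤) →
    (∀ (σ : ↥(Iner A)) (w : W), σ • w = w) ∨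
    ∃ (c : Qb) (y : W → Qb), A.valuation c < 1 ∧ A.valuation (p : Qb) ≤ A.valuation c ^ (p - 1) ∧
      (∀ (σ : ↥(Iner A)) (w : W), y (σ • w) = σ.1 (y w)) ∧
      (∀ w, w ≠ 0 → A.valuation (y w) = A.valuation c) ∧ y 0 = 0 ∧
      (∀ w w', A.valuation (y (w + w') - y w - y w') < A.valuation c)

/-- (TC1) from (TC). -/
theorem Tame1.line_of_TC (hp : p.Prime) (hA : A.LiesOverPrime p) (hTC : Tame1.TCStmt A p)
    [Finite W] (h : FlatLoc A W) (w : W) (hw : w ≠ 0) (hpw : p • w = 0)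
    (hline : ∀ σ : ↥(Iner A), ∃ n : ℕ, σ • w = n • w) :
    (∀ σ : ↥(Iner A), σ • w = w) ∨
    (∀ (σ : ↥(Iner A)) (ζ : Qb) (n : ℕ), ζ ^ p = 1 → ζ ≠ 1 → σ.1 ζ = ζ ^ n → σ • w = n • w) := by
  haveI : Fact p.Prime := ⟨hp⟩
  have hs₁ : ∀ (σ : ↥(Iner A)), ∀ x ∈ AddSubgroup.zmultiples w,
      σ • x ∈ AddSubgroup.zmultiples w := by
    rintro σ _ ⟨k, rfl⟩
    obtain ⟨n, hn⟩ := hline σ
    refine ⟨k * n, ?_⟩
    show (k * (n : ℤ)) • w = σ • (k • w)
    rw [smul_comm σ k w, hn, mul_smul, natCast_zsmul]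
  letI := subAction (AddSubgroup.zmultiples w) hs₁
  have hflat : FlatLoc A ↥(AddSubgroup.zmultiples w) :=
    FlatLoc.of_injective h (subMap _ hs₁) (subMap_injective _ hs₁)
  have hcard : Nat.card ↥(AddSubgroup.zmultiples w) = p := by
    rw [Nat.card_zmultiples, addOrderOf_eq_prime hpw hw]
  haveI : IsSimpleAddGroup ↥(AddSubgroup.zmultiples w) := isSimpleAddGroup_of_prime_card hcard
  have hpW : ∀ x : ↥(AddSubgroup.zmultiples w), p • x = 0 := by
    rintro ⟨_, k, rfl⟩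
    apply Subtype.ext
    show p • (k • w) = 0
    rw [smul_comm, hpw, smul_zero]
  set w₁ : ↥(AddSubgroup.zmultiples w) := ⟨w, AddSubgroup.mem_zmultiples w⟩ with hw₁
  have hw₁0 : w₁ ≠ 0 := fun h0 => hw (congrArg Subtype.val h0)
  rcases hTC ↥(AddSubgroup.zmultiples w) hpW hflat
    (fun W' _ => (AddSubgroup.normal_of_isAddCommutative W').eq_bot_or_eq_top) with
    htriv | ⟨c, y, hc1, hpc, hequiv, hval, hy0, hadd⟩
  · left
    intro σ
    exact congrArg Subtype.val (htriv σ w₁)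
  · right
    intro σ ζ n' hζ hζ1 hσζ
    obtain ⟨n, hn⟩ := hline σ
    have := Tame1.cyclotomic hp hA
      (fun y hy s hys hs horb => exists_zpow_of_orbit hp hA y hy s hys hs horb)
      (fun ζ hζ hζ1 => val_zeta_sub_one hp hA ζ hζ hζ1) hcard hc1 hpc hequiv hval hy0 hadd w₁ hw₁0
      (hpW w₁) σ n (Subtype.ext hn) ζ n' hζ hζ1 hσζ
    exact congrArg Subtype.val this

end Fermat.Agent.S56.Flat
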