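/-
S56 / FLAT / block FD (architect helper116), node FD-G2 (helper272): (TC1), wrapper around the
sorry-free `Depth/Tame1Of.lean`.
-/
import Fermat.Agent.S56.Flat.Depth.Tame1Of
import Fermat.Agent.S56.Flat.Depth.Tame

set_option autoImplicit false

namespace Fermat.Agent.S56.Flat

open Fermat.Agent.Lib.InertiaField

variable {A : ValuationSubring Qb} {p : ℕ}
variable {W : Type} [AddCommGroup W] [DistribMulAction ↥(Iner A) W]

/-- (TC1) a flat line: inertia acts trivially or through the cyclotomic character. -/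
theorem FlatLoc.line_trivial_or_cyclotomic (hp : p.Prime) (hp2 : p ≠ 2) (hA : A.LiesOverPrime p)
    [Finite W] (h : FlatLoc A W) (w : W) (hw : w ≠ 0) (hpw : p • w = 0)
    (hline : ∀ σ : ↥(Iner A), ∃ n : ℕ, σ • w = n • w) :
    (∀ σ : ↥(Iner A), σ • w = w) ∨
    (∀ (σ : ↥(Iner A)) (ζ : Qb) (n : ℕ), ζ ^ p = 1 → ζ ≠ 1 → σ.1 ζ = ζ ^ n → σ • w = n • w) :=
  Tame1.line_of_TC hp hA
    (fun _ _ _ _ hpW hfl hirr => FlatLoc.exists_leading_term hp hp2 hA hpW hfl hirr) h w hw hpw hline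

end Fermat.Agent.S56.Flat
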